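/-
Programme JAC, S26 track, brick DIV1 (c) (helper31): **descent of unique factorisation along a
faithfully flat extension**, in particular from the completion of a noetherian local ring.
Mathlib only.

* `map_span_inf_span` : for a flat `A`-algebra `A'`, `((a) ⊓ (b)) A' = (a) A' ⊓ (b) A'`
  (equational criterion of flatness).
* `exists_mem_span_singleton_eq_or_eq_bot` : in a local ring, a principal ideal `(y) = span T` is
  generated by one element of `T` (or is zero).
* `exists_eq_span_singleton_of_map` : `A → A'` faithfully flat, `A'` local, `I` an ideal of `A`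
  with `I A'` principal; then `I` is principal.
* `ufd_of_faithfullyFlat` : `A` a noetherian domain, `A'` a faithfully flat `A`-algebra which is a
  local domain and a UFD; then `A` is a UFD.
* `isDomain_of_completion`, `ufd_of_completion` : `C` noetherian local with `Ĉ` a domain
  (resp. a UFD); then `C` is a domain (resp. a UFD).
-/
import Mathlib

set_option autoImplicit false

namespace Fermat.Agent.JAC.Div1.CompletionUFD31

open IsLocalRing

section Flat

variable {A A' : Type*} [CommRing A] [CommRing A'] [Algebra A A']

/-- Flat base change commutes with the intersection of two principal ideals. -/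
theorem map_span_inf_span [Module.Flat A A'] (a b : A) :
    (Ideal.span {a} ⊓ Ideal.span {b}).map (algebraMap A A') =
      Ideal.span {algebraMap A A' a} ⊓ Ideal.span {algebraMap A A' b} := by
  apply le_antisymm
  · refine le_trans (Ideal.map_inf_le _) ?_
    rw [Ideal.map_span, Ideal.map_span, Set.image_singleton, Set.image_singleton]
  · rintro x ⟨hxa, hxb⟩
    rw [SetLike.mem_coe, Ideal.mem_span_singleton'] at hxa hxb
    obtain ⟨u, hu⟩ := hxa
    obtain ⟨v, hv⟩ := hxb
    have htriv : Module.IsTrivialRelation (![a, -b] : Fin 2 → A) (![u, v] : Fin 2 → A') := by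
      apply Module.Flat.isTrivialRelation_of_sum_smul_eq_zero
      simp only [Fin.sum_univ_two, Matrix.cons_val_zero, Matrix.cons_val_one, Algebra.smul_def,
        map_neg]
      rw [mul_comm, hu, neg_mul, mul_comm, hv, add_neg_cancel]
    obtain ⟨k, α, y, hxy, hα⟩ := htriv
    have hα' : ∀ j, a * α 0 j = b * α 1 j := by
      intro j
      have := hα j
      simp only [Fin.sum_univ_two, Matrix.cons_val_zero, Matrix.cons_val_one] at this
      linear_combination this
    have hmem : ∀ j, a * α 0 j ∈ Ideal.span {a} ⊓ Ideal.span {b} := by
      intro j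
      refine ⟨Ideal.mul_mem_right _ _ (Ideal.mem_span_singleton_self a), ?_⟩
      rw [SetLike.mem_coe, hα' j]
      exact Ideal.mul_mem_right _ _ (Ideal.mem_span_singleton_self b)
    have hu' : u = ∑ j, α 0 j • y j := by simpa using hxy 0
    have hx : x = ∑ j, algebraMap A A' (a * α 0 j) * y j := by
      rw [← hu, hu', Finset.sum_mul]
      refine Finset.sum_congr rfl fun j _ => ?_
      rw [Algebra.smul_def, map_mul]
      ring
    rw [hx]
    refine Ideal.sum_mem _ fun j _ => ?_
    exact Ideal.mul_mem_right _ _ (Ideal.mem_map_of_mem _ (hmem j))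

end Flat

section Local

variable {A' : Type*} [CommRing A'] [IsLocalRing A']

/-- In a local ring, if a principal ideal `(y)` is generated by a set `T`, then it is generated
by a single element of `T`, unless it is zero. -/
theorem exists_mem_span_singleton_eq_or_eq_bot (T : Set A') (y : A')
    (hT : Ideal.span T = Ideal.span {y}) :
    (∃ t ∈ T, Ideal.span {t} = Ideal.span {y}) ∨ Ideal.span {y} = (⊥ : Ideal A') := by
  by_contra hcon
  rw [not_or, not_exists] at hcon
  obtain ⟨hno, hbot⟩ := hcon
  apply hbot
  have hle : Ideal.span {y} ≤ maximalIdeal A' • Ideal.span {y} := by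
    refine le_of_eq_of_le hT.symm ?_
    rw [Ideal.span_le]
    intro t ht
    have hty : t ∈ Ideal.span {y} := by
      rw [← hT]
      exact Ideal.subset_span ht
    rw [Ideal.mem_span_singleton'] at hty
    obtain ⟨c, hc⟩ := hty
    have hcm : c ∈ maximalIdeal A' := by
      rw [mem_maximalIdeal, mem_nonunits_iff]
      intro hcu
      apply hno t
      refine ⟨ht, ?_⟩
      rw [← hc, Ideal.span_singleton_mul_left_unit hcu]
    rw [SetLike.mem_coe, ← hc, ← smul_eq_mul]
    exact Submodule.smul_mem_smul hcm (Ideal.mem_span_singleton_self y)
  exact Submodule.eq_bot_of_le_smul_of_le_jacobson_bot (maximalIdeal A') (Ideal.span {y})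
    (Submodule.fg_span_singleton y) hle (maximalIdeal_le_jacobson ⊥)

end Local

section FaithfullyFlat

variable {A A' : Type*} [CommRing A] [CommRing A'] [Algebra A A'] [Module.FaithfullyFlat A A']

theorem algebraMap_injective_of_faithfullyFlat : Function.Injective (algebraMap A A') := by
  rw [injective_iff_map_eq_zero]
  intro a ha
  have h := Ideal.comap_map_eq_self_of_faithfullyFlat (B := A') (⊥ : Ideal A)
  rw [Ideal.map_bot] at h
  have : a ∈ Ideal.comap (algebraMap A A') (⊥ : Ideal A') := by
    rw [Ideal.mem_comap, ha]
    exact Ideal.zero_mem _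
  rw [h] at this
  exact this

/-- Along a faithfully flat map to a local ring, an ideal whose extension is principal is
principal. -/
theorem exists_eq_span_singleton_of_map [IsLocalRing A'] (I : Ideal A) (y : A')
    (hy : I.map (algebraMap A A') = Ideal.span {y}) : ∃ x, I = Ideal.span {x} := by
  have hT : Ideal.span ((algebraMap A A') '' (I : Set A)) = Ideal.span {y} := by
    rw [← hy]
    rfl
  rcases exists_mem_span_singleton_eq_or_eq_bot _ y hT with ⟨t, ⟨x, hxI, rfl⟩, ht⟩ | hbot
  · refine ⟨x, ?_⟩
    have h1 : (Ideal.span {x}).map (algebraMap A A') = I.map (algebraMap A A') := by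
      rw [Ideal.map_span, Set.image_singleton, ht, hy]
    have h2 := congrArg (Ideal.comap (algebraMap A A')) h1
    rw [Ideal.comap_map_eq_self_of_faithfullyFlat, Ideal.comap_map_eq_self_of_faithfullyFlat] at h2
    exact h2.symm
  · refine ⟨0, ?_⟩
    have h1 : I.map (algebraMap A A') = (⊥ : Ideal A).map (algebraMap A A') := by
      rw [hy, hbot, Ideal.map_bot]
    have h2 := congrArg (Ideal.comap (algebraMap A A')) h1
    rw [Ideal.comap_map_eq_self_of_faithfullyFlat, Ideal.comap_map_eq_self_of_faithfullyFlat] at h2
    rw [h2]
    simp

/-- **Descent of unique factorisation** along a faithfully flat extension which is a local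
UFD. -/
theorem ufd_of_faithfullyFlat [IsDomain A] [IsNoetherianRing A] [IsDomain A'] [IsLocalRing A']
    [UniqueFactorizationMonoid A'] : UniqueFactorizationMonoid A := by
  classical
  have : IsGCDMonoid A := by
    rw [isGCDMonoid_iff_exists_lcm]
    refine ⟨inferInstance, fun a b => ?_⟩
    -- the intersection `(a) ⊓ (b)` is principal
    let _ : GCDMonoid A' := UniqueFactorizationMonoid.toGCDMonoid A'
    have hlcm : Ideal.span {algebraMap A A' a} ⊓ Ideal.span {algebraMap A A' b} =
        Ideal.span {lcm (algebraMap A A' a) (algebraMap A A' b)} := by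
      ext z
      simp only [Ideal.mem_inf, Ideal.mem_span_singleton]
      exact (lcm_dvd_iff).symm
    obtain ⟨c, hc⟩ := exists_eq_span_singleton_of_map (A' := A')
      (Ideal.span {a} ⊓ Ideal.span {b}) _ ((map_span_inf_span a b).trans hlcm)
    refine ⟨c, fun d => ?_⟩
    rw [← Ideal.mem_span_singleton, ← Ideal.mem_span_singleton, ← Ideal.mem_span_singleton,
      ← hc, Ideal.mem_inf]
  exact ufm_of_decomposition_of_wfDvdMonoid

end FaithfullyFlat

section Completion

variable (C : Type*) [CommRing C] [IsNoetherianRing C] [IsLocalRing C]

instance faithfullyFlat_completion :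
    Module.FaithfullyFlat C (AdicCompletion (maximalIdeal C) C) :=
  Module.FaithfullyFlat.of_flat_of_isLocalHom

/-- A noetherian local ring whose completion is a domain is a domain. -/
theorem isDomain_of_completion [IsDomain (AdicCompletion (maximalIdeal C) C)] : IsDomain C :=
  Function.Injective.isDomain (algebraMap C (AdicCompletion (maximalIdeal C) C))
    algebraMap_injective_of_faithfullyFlat

/-- A noetherian local domain whose completion is a UFD is a UFD. -/
theorem ufd_of_completion [IsDomain C] [IsDomain (AdicCompletion (maximalIdeal C) C)]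
    [UniqueFactorizationMonoid (AdicCompletion (maximalIdeal C) C)] :
    UniqueFactorizationMonoid C :=
  ufd_of_faithfullyFlat (A' := AdicCompletion (maximalIdeal C) C)

end Completion

end Fermat.Agent.JAC.Div1.CompletionUFD31
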