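import Mathlib

set_option autoImplicit false

namespace Fermat.Agent.JAC.Div1.MvPowerSeriesComplete31

open IsLocalRing MvPowerSeries

variable {σ : Type*}

open Classical in
/-- a chosen index in the support of a nonzero exponent. -/
noncomputable def firstIdx (d : σ →₀ ℕ) : Option σ :=
  if h : d = 0 then none else some (Finsupp.support_nonempty_iff.2 h).choose

theorem firstIdx_zero : firstIdx (0 : σ →₀ ℕ) = none := by
  simp [firstIdx]

theorem firstIdx_spec {d : σ →₀ ℕ} {i : σ} (h : firstIdx d = some i) : d i ≠ 0 := by
  classical
  unfold firstIdx at h
  split_ifs at h with h0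
  rw [Option.some.injEq] at h
  rw [← h]
  exact Finsupp.mem_support_iff.1 (Finsupp.support_nonempty_iff.2 h0).choose_spec

theorem firstIdx_isSome {d : σ →₀ ℕ} (h : d ≠ 0) : ∃ i, firstIdx d = some i := by
  classical
  unfold firstIdx
  rw [dif_neg h]
  exact ⟨_, rfl⟩

/-- A power series in finitely many variables with zero constant coefficient lies in the ideal
generated by the variables. -/
theorem mem_span_range_X_of_constantCoeff_eq_zero [Finite σ] {R : Type*} [CommRing R]
    (p : MvPowerSeries σ R) (hp : constantCoeff p = 0) :
    p ∈ Ideal.span (Set.range (X : σ → MvPowerSeries σ R)) := by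
  classical
  have := Fintype.ofFinite σ
  let q : σ → MvPowerSeries σ R := fun i e =>
    if firstIdx (e + Finsupp.single i 1) = some i then coeff (e + Finsupp.single i 1) p else 0
  have hq : ∀ i e, coeff e (q i) =
      if firstIdx (e + Finsupp.single i 1) = some i then coeff (e + Finsupp.single i 1) p
      else 0 := fun i e => rfl
  have hsum : p = ∑ i, X i * q i := by
    ext d
    rw [map_sum]
    by_cases hd : d = 0
    · subst hd
      rw [coeff_zero_eq_constantCoeff_apply, hp]
      symm
      refine Finset.sum_eq_zero fun i _ => ?_
      rw [X, coeff_monomial_mul, if_neg]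
      intro hle
      have := hle i
      simp at this
    · obtain ⟨i₀, hi₀⟩ := firstIdx_isSome hd
      have hdi₀ : d i₀ ≠ 0 := firstIdx_spec hi₀
      rw [Finset.sum_eq_single i₀]
      · rw [X, coeff_monomial_mul, if_pos, one_mul, hq]
        · have : d - Finsupp.single i₀ 1 + Finsupp.single i₀ 1 = d := by
            ext j
            by_cases hj : j = i₀
            · subst hj
              simp
              omega
            · simp [Ne.symm hj]
          rw [this, if_pos hi₀]
        · intro j
          by_cases hj : j = i₀
          · subst hj
            simp
            omega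
          · simp [Ne.symm hj]
      · intro i _ hi
        rw [X, coeff_monomial_mul]
        split_ifs with hle
        · rw [one_mul, hq]
          have : d - Finsupp.single i 1 + Finsupp.single i 1 = d := by
            ext j
            have := hle j
            by_cases hj : j = i
            · subst hj
              simp at this ⊢
              omega
            · simp [Ne.symm hj]
          rw [this, if_neg]
          rw [hi₀]
          intro h
          exact hi (Option.some.inj h).symm
        · rfl
      · intro h
        exact (h (Finset.mem_univ _)).elim
  rw [hsum]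
  refine Ideal.sum_mem _ fun i _ => ?_
  exact Ideal.mul_mem_right _ _ (Ideal.subset_span ⟨i, rfl⟩)

variable {K : Type*} [Field K]

theorem maximalIdeal_eq_span_range_X [Finite σ] :
    maximalIdeal (MvPowerSeries σ K) = Ideal.span (Set.range (X : σ → MvPowerSeries σ K)) := by
  apply le_antisymm
  · intro p hp
    apply mem_span_range_X_of_constantCoeff_eq_zero
    rw [mem_maximalIdeal, mem_nonunits_iff, MvPowerSeries.isUnit_iff_constantCoeff] at hp
    by_contra h
    exact hp (isUnit_iff_ne_zero.2 h)
  · rw [Ideal.span_le]
    rintro _ ⟨i, rfl⟩
    rw [SetLike.mem_coe, mem_maximalIdeal, mem_nonunits_iff, MvPowerSeries.isUnit_iff_constantCoeff]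
    simp

instance isAdicComplete_maximalIdeal [Finite σ] :
    IsAdicComplete (maximalIdeal (MvPowerSeries σ K)) (MvPowerSeries σ K) := by
  rw [maximalIdeal_eq_span_range_X]
  infer_instance

end Fermat.Agent.JAC.Div1.MvPowerSeriesComplete31
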