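import Mathlib

set_option autoImplicit false

namespace Fermat.Agent.JAC.Div1.Shear31

open MvPowerSeries

variable {K : Type*} [Field K] {n : ℕ}

/-- The shear family `X i + c_i X_0`. -/
noncomputable def shearFam (c : Fin (n + 1) → K) (i : Fin (n + 1)) :
    MvPowerSeries (Fin (n + 1)) K :=
  X i + C (c i) * X 0

theorem hasSubst_shearFam (c : Fin (n + 1) → K) : HasSubst (shearFam c) :=
  hasSubst_of_constantCoeff_zero (by simp [shearFam])

theorem subst_shearFam_shearFam (c c' : Fin (n + 1) → K) (i : Fin (n + 1)) :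
    subst (shearFam c') (shearFam c i) = shearFam (fun j => c' j + c j * (1 + c' 0)) i := by
  have h := hasSubst_shearFam c'
  unfold shearFam at h ⊢
  rw [subst_add h, subst_mul h, subst_X h, subst_X h, subst_C]
  simp only [map_add, map_mul, map_one]
  ring

/-- The shear endomorphism `X i ↦ X i + c_i X_0`. -/
noncomputable def shearHom (c : Fin (n + 1) → K) :
    MvPowerSeries (Fin (n + 1)) K →ₐ[K] MvPowerSeries (Fin (n + 1)) K :=
  substAlgHom (hasSubst_shearFam c)

theorem shearHom_apply (c : Fin (n + 1) → K) (f : MvPowerSeries (Fin (n + 1)) K) :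
    shearHom c f = subst (shearFam c) f := by
  rw [shearHom, substAlgHom_apply]

theorem shearHom_comp_apply (c c' : Fin (n + 1) → K) (f : MvPowerSeries (Fin (n + 1)) K) :
    shearHom c' (shearHom c f) = shearHom (fun j => c' j + c j * (1 + c' 0)) f := by
  rw [shearHom_apply, shearHom_apply, shearHom_apply,
    subst_comp_subst_apply (hasSubst_shearFam c) (hasSubst_shearFam c')]
  congr 1
  funext i
  exact subst_shearFam_shearFam c c' i

theorem shearHom_zero_apply (f : MvPowerSeries (Fin (n + 1)) K) :
    shearHom (fun _ => (0 : K)) f = f := by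
  rw [shearHom_apply]
  have : shearFam (fun _ => (0 : K)) = (X : Fin (n + 1) → MvPowerSeries (Fin (n + 1)) K) := by
    funext i
    simp [shearFam]
  rw [this, subst_self]
  rfl

/-- The shear automorphism. -/
noncomputable def shearEquiv (c : Fin (n + 1) → K) (hc : 1 + c 0 ≠ 0) :
    MvPowerSeries (Fin (n + 1)) K ≃ₐ[K] MvPowerSeries (Fin (n + 1)) K :=
  AlgEquiv.ofAlgHom (shearHom c) (shearHom (fun j => - c j * (1 + c 0)⁻¹))
    (by
      ext f : 1
      rw [AlgHom.comp_apply, shearHom_comp_apply, AlgHom.id_apply]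
      convert shearHom_zero_apply f using 3
      funext j
      field_simp
      ring)
    (by
      ext f : 1
      rw [AlgHom.comp_apply, shearHom_comp_apply, AlgHom.id_apply]
      convert shearHom_zero_apply f using 3
      funext j
      field_simp
      ring)

theorem shearEquiv_apply (c : Fin (n + 1) → K) (hc : 1 + c 0 ≠ 0)
    (f : MvPowerSeries (Fin (n + 1)) K) :
    shearEquiv c hc f = subst (shearFam c) f :=
  shearHom_apply c f

/-- Setting `X_i ↦ 0` for `i ≠ 0`: a ring hom to `K⟦X⟧`. -/
noncomputable def eps : MvPowerSeries (Fin (n + 1)) K →+* PowerSeries K :=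
  (PowerSeries.map (constantCoeff (σ := Fin n) (R := K))).comp
    ((finSuccEquiv K n).toRingEquiv : MvPowerSeries (Fin (n + 1)) K →+*
      PowerSeries (MvPowerSeries (Fin n) K))

theorem eps_apply (g : MvPowerSeries (Fin (n + 1)) K) :
    eps g = PowerSeries.map (constantCoeff (σ := Fin n) (R := K)) (finSuccEquiv K n g) := rfl

theorem coeff_eps (g : MvPowerSeries (Fin (n + 1)) K) (k : ℕ) :
    PowerSeries.coeff k (eps g) = coeff (Finsupp.cons k 0) g := by
  rw [eps_apply, PowerSeries.coeff_map, ← coeff_zero_eq_constantCoeff_apply]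
  exact coeff_coeff_finSuccEquiv g

theorem eps_X_zero : eps (X 0 : MvPowerSeries (Fin (n + 1)) K) = PowerSeries.X := by
  rw [eps_apply, finSuccEquiv_X_zero, PowerSeries.map_X]

theorem eps_X_succ (j : Fin n) : eps (X j.succ : MvPowerSeries (Fin (n + 1)) K) = 0 := by
  rw [eps_apply, finSuccEquiv_X_succ, PowerSeries.map_C, constantCoeff_X, map_zero]

theorem eps_C (r : K) : eps (C r : MvPowerSeries (Fin (n + 1)) K) = PowerSeries.C r := by
  rw [eps_apply, finSuccEquiv_C, PowerSeries.map_C, constantCoeff_C]

/-- the evaluation point attached to a shear. -/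
def shearPt (c : Fin (n + 1) → K) (i : Fin (n + 1)) : K := c i + if i = 0 then 1 else 0

theorem eps_shearFam (c : Fin (n + 1) → K) (i : Fin (n + 1)) :
    eps (shearFam c i) = PowerSeries.C (shearPt c i) * PowerSeries.X := by
  unfold shearFam shearPt
  rw [map_add, map_mul, eps_C, eps_X_zero]
  refine Fin.cases ?_ (fun j => ?_) i
  · rw [eps_X_zero, if_pos rfl, map_add, map_one]
    ring
  · rw [eps_X_succ, if_neg (Fin.succ_ne_zero j), add_zero, zero_add]

theorem eps_prod_shearFam (c : Fin (n + 1) → K) (d : Fin (n + 1) →₀ ℕ) :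
    eps (d.prod fun s m => shearFam c s ^ m) =
      PowerSeries.C (d.prod fun s m => shearPt c s ^ m) * PowerSeries.X ^ d.degree := by
  rw [map_finsuppProd]
  simp only [map_pow, eps_shearFam, mul_pow]
  rw [Finsupp.prod_mul, Finsupp.degree]
  congr 1
  · rw [Finsupp.prod, Finsupp.prod, map_prod]
    simp only [map_pow]
  · rw [Finsupp.prod, Finset.prod_pow_eq_pow_sum]
    rfl

/-- homogeneous part of degree `k` of a power series, as a polynomial. -/
noncomputable def homPart (f : MvPowerSeries (Fin (n + 1)) K) (k : ℕ) :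
    MvPolynomial (Fin (n + 1)) K :=
  MvPolynomial.homogeneousComponent k (truncTotal (k + 1) f)

theorem coeff_homPart (f : MvPowerSeries (Fin (n + 1)) K) (k : ℕ) (d : Fin (n + 1) →₀ ℕ) :
    (homPart f k).coeff d = if d.degree = k then coeff d f else 0 := by
  rw [homPart, MvPolynomial.coeff_homogeneousComponent]
  split_ifs with h
  · rw [coeff_truncTotal]
    omega
  · rfl

theorem coeff_cons_subst_shearFam (c : Fin (n + 1) → K) (f : MvPowerSeries (Fin (n + 1)) K)
    (k : ℕ) :
    coeff (Finsupp.cons k 0) (subst (shearFam c) f) =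
      MvPolynomial.eval (shearPt c) (homPart f k) := by
  rw [coeff_subst (hasSubst_shearFam c)]
  have h1 : ∀ d : Fin (n + 1) →₀ ℕ,
      coeff d f • coeff (Finsupp.cons k 0) (d.prod fun s m => shearFam c s ^ m) =
        (homPart f k).coeff d * d.prod fun s m => shearPt c s ^ m := by
    intro d
    rw [← coeff_eps, eps_prod_shearFam, PowerSeries.coeff_C_mul_X_pow, coeff_homPart,
      smul_eq_mul]
    by_cases h : d.degree = k
    · rw [if_pos h, if_pos h.symm]
    · rw [if_neg h, if_neg (Ne.symm h), mul_zero, zero_mul]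
  simp only [h1]
  rw [MvPolynomial.eval_eq, finsum_eq_sum_of_support_subset]
  · rfl
  · intro d hd
    rw [Function.mem_support] at hd
    rw [Finset.mem_coe, MvPolynomial.mem_support_iff]
    exact left_ne_zero_of_mul hd

/-- **Regularising shear**: for `f ≠ 0` over an infinite field, some shear automorphism makes
`f` regular in `X_0`. -/
theorem exists_shearEquiv_coeff_ne_zero [Infinite K] {f : MvPowerSeries (Fin (n + 1)) K}
    (hf : f ≠ 0) :
    ∃ σ : MvPowerSeries (Fin (n + 1)) K ≃ₐ[K] MvPowerSeries (Fin (n + 1)) K,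
      ∃ k : ℕ, coeff (Finsupp.cons k 0) (σ f) ≠ 0 := by
  obtain ⟨d₀, hd₀⟩ : ∃ d, coeff d f ≠ 0 := by
    by_contra h
    push Not at h
    exact hf (MvPowerSeries.ext h)
  set k := d₀.degree with hk
  have hP : homPart f k ≠ 0 := by
    intro h0
    have := coeff_homPart f k d₀
    rw [h0, if_pos rfl, MvPolynomial.coeff_zero] at this
    exact hd₀ this.symm
  have hXP : (MvPolynomial.X 0 : MvPolynomial (Fin (n + 1)) K) * homPart f k ≠ 0 :=
    mul_ne_zero (MvPolynomial.X_ne_zero 0) hP
  obtain ⟨e, he⟩ : ∃ e : Fin (n + 1) → K,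
      MvPolynomial.eval e ((MvPolynomial.X 0 : MvPolynomial (Fin (n + 1)) K) * homPart f k) ≠ 0 := by
    by_contra h
    push Not at h
    exact hXP (MvPolynomial.funext fun x => by rw [h x, map_zero])
  rw [map_mul, MvPolynomial.eval_X] at he
  have he0 : e 0 ≠ 0 := left_ne_zero_of_mul he
  have heP : MvPolynomial.eval e (homPart f k) ≠ 0 := right_ne_zero_of_mul he
  set c : Fin (n + 1) → K := fun i => e i - if i = 0 then 1 else 0 with hc
  have hce : shearPt c = e := by
    funext i
    simp [shearPt, hc]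
  have hc0 : 1 + c 0 ≠ 0 := by
    simpa [hc] using he0
  refine ⟨shearEquiv c hc0, k, ?_⟩
  rw [shearEquiv_apply, coeff_cons_subst_shearFam, hce]
  exact heP

end Fermat.Agent.JAC.Div1.Shear31
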