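import Mathlib

set_option autoImplicit false

namespace Fermat.Agent.JAC.Div1.WeierstrassPrime31

open IsLocalRing Polynomial PowerSeries

variable {R : Type*} [CommRing R] [IsDomain R] [IsLocalRing R]

omit [IsDomain R] in
/-- A monic polynomial over a local ring whose reduction divides a power of `X` and whose constant
coefficient is a unit has degree `0`. -/
theorem natDegree_eq_zero_of_monic_of_dvd_X_pow {a b : R[X]} (ha : a.Monic) {d : ℕ}
    (hab : (a * b).map (residue R) = (X : (ResidueField R)[X]) ^ d)
    (hu : IsUnit (a.coeff 0)) : a.natDegree = 0 := by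
  set a' := a.map (residue R) with ha'
  have ha'm : a'.Monic := ha.map _
  have hdvd : a' ∣ (X : (ResidueField R)[X]) ^ d := by
    rw [← hab, Polynomial.map_mul]
    exact dvd_mul_right _ _
  have hnX : ¬ (X : (ResidueField R)[X]) ∣ a' := by
    rw [Polynomial.X_dvd_iff, ha', Polynomial.coeff_map]
    intro h0
    have : a.coeff 0 ∈ maximalIdeal R := by
      rwa [← Ideal.Quotient.eq_zero_iff_mem]
    exact (mem_maximalIdeal _).1 this hu
  have hcop : IsCoprime a' ((X : (ResidueField R)[X]) ^ d) :=
    (((Polynomial.irreducible_X (R := ResidueField R)).coprime_iff_not_dvd.2 hnX).symm).pow_right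
  have hunit : IsUnit a' := hcop.isUnit_of_dvd' dvd_rfl hdvd
  have h0 : a'.natDegree = 0 := Polynomial.natDegree_eq_zero_of_isUnit hunit
  rwa [ha', ha.natDegree_map] at h0

variable [IsAdicComplete (maximalIdeal R) R] [UniqueFactorizationMonoid R]

/-- **Weierstrass step**: over a complete local UFD `R`, an irreducible power series in `R⟦X⟧`
whose reduction to the residue field is nonzero is prime. -/
theorem prime_of_irreducible_of_map_ne_zero {f : R⟦X⟧} (hf : Irreducible f)
    (hreg : f.map (residue R) ≠ 0) : Prime f := by
  obtain ⟨P, h, H⟩ := f.exists_isWeierstrassFactorization hreg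
  have hPm : P.Monic := H.isDistinguishedAt.monic
  have hfP : Associated f (P : R⟦X⟧) := by
    obtain ⟨u, hu⟩ := H.isUnit
    refine Associated.symm ⟨u, ?_⟩
    rw [hu, ← H.eq_mul]
  have hPirrS : Irreducible (P : R⟦X⟧) := hfP.irreducible hf
  -- `P` is irreducible in `R[X]`
  have hPirr : Irreducible P := by
    rw [hPm.irreducible_iff_natDegree]
    constructor
    · rintro rfl
      exact hPirrS.not_isUnit (by simp)
    · intro a b ham hbm hab
      have habS : (P : R⟦X⟧) = (a : R⟦X⟧) * (b : R⟦X⟧) := by
        rw [← hab, Polynomial.coe_mul]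
      have hmap : ∀ {a b : R[X]}, a * b = P →
          (a * b).map (residue R) = (X : (ResidueField R)[X]) ^ P.natDegree := by
        intro a b hab
        rw [hab]
        exact H.isDistinguishedAt.map_eq_X_pow
      rcases hPirrS.isUnit_or_isUnit habS with hu | hu
      · left
        refine natDegree_eq_zero_of_monic_of_dvd_X_pow ham (hmap hab) ?_
        have := PowerSeries.isUnit_iff_constantCoeff.1 hu
        simpa using this
      · right
        refine natDegree_eq_zero_of_monic_of_dvd_X_pow hbm (hmap (by rw [mul_comm, hab])) ?_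
        have := PowerSeries.isUnit_iff_constantCoeff.1 hu
        simpa using this
  have hPprime : Prime P := UniqueFactorizationMonoid.irreducible_iff_prime.1 hPirr
  have hdom : IsDomain (R[X] ⧸ Ideal.span {P}) := by
    rw [Ideal.Quotient.isDomain_iff_prime, Ideal.span_singleton_prime hPprime.ne_zero]
    exact hPprime
  have hdom' : IsDomain (R⟦X⟧ ⧸ Ideal.span {f}) :=
    H.algEquivQuotient.toMulEquiv.isDomain_iff.mp hdom
  rw [Ideal.Quotient.isDomain_iff_prime, Ideal.span_singleton_prime hf.ne_zero] at hdom'
  exact hdom'

end Fermat.Agent.JAC.Div1.WeierstrassPrime31
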