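import Mathlib
import Fermat.Agent.JAC.Div1.WeierstrassPrime31
import Fermat.Agent.JAC.Div1.MvPowerSeriesComplete31
import Fermat.Agent.JAC.Div1.Shear31

set_option autoImplicit false

namespace Fermat.Agent.JAC.Div1.MvPowerSeriesUFD31

open MvPowerSeries IsLocalRing

/-- A Noetherian domain in which irreducibles are prime is a UFD. -/
theorem ufd_of_irreducible_imp_prime {A : Type*} [CommRing A] [IsDomain A] [IsNoetherianRing A]
    (h : ∀ a : A, Irreducible a → Prime a) : UniqueFactorizationMonoid A :=
  { (IsNoetherianRing.wfDvdMonoid : WfDvdMonoid A) with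
    irreducible_iff_prime := ⟨h _, Prime.irreducible⟩ }

variable {K : Type*} [Field K]

/-- power series rings over a field are domains. -/
theorem isDomain (σ : Type*) : IsDomain (MvPowerSeries σ K) :=
  NoZeroDivisors.to_isDomain _

/-- regularity in `X_0` gives a nonzero reduction of the associated one-variable series. -/
theorem map_residue_finSuccEquiv_ne_zero {n : ℕ} {g : MvPowerSeries (Fin (n + 1)) K} {k : ℕ}
    (hk : coeff (Finsupp.cons k 0) g ≠ 0) :
    (finSuccEquiv K n g).map (residue (MvPowerSeries (Fin n) K)) ≠ 0 := by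
  intro h0
  have h1 := congrArg (PowerSeries.coeff k) h0
  rw [PowerSeries.coeff_map, map_zero, residue_eq_zero_iff, mem_maximalIdeal, mem_nonunits_iff,
    MvPowerSeries.isUnit_iff_constantCoeff, ← coeff_zero_eq_constantCoeff_apply,
    coeff_coeff_finSuccEquiv] at h1
  exact h1 (isUnit_iff_ne_zero.2 hk)

variable [Infinite K]

open WeierstrassPrime31 MvPowerSeriesComplete31 Shear31

/-- **Formal power series rings over an infinite field are factorial.** -/
theorem ufd_fin (n : ℕ) : UniqueFactorizationMonoid (MvPowerSeries (Fin n) K) := by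
  induction n with
  | zero =>
    exact (isEmptyEquiv (Fin 0) K).symm.toMulEquiv.uniqueFactorizationMonoid inferInstance
  | succ n ih =>
    have hR : IsDomain (MvPowerSeries (Fin n) K) := isDomain _
    have hT : IsDomain (MvPowerSeries (Fin (n + 1)) K) := isDomain _
    refine ufd_of_irreducible_imp_prime fun f hf => ?_
    obtain ⟨σ, k, hk⟩ := exists_shearEquiv_coeff_ne_zero hf.ne_zero
    have h1 : Irreducible (σ f) := (MulEquiv.irreducible_iff σ).2 hf
    have h2 : Irreducible (finSuccEquiv K n (σ f)) :=
      (MulEquiv.irreducible_iff (finSuccEquiv K n)).2 h1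
    have h3 : Prime (finSuccEquiv K n (σ f)) :=
      prime_of_irreducible_of_map_ne_zero h2 (map_residue_finSuccEquiv_ne_zero hk)
    exact (MulEquiv.prime_iff σ).1 ((MulEquiv.prime_iff (finSuccEquiv K n)).1 h3)

/-- Formal power series rings in finitely many variables over an infinite field are factorial. -/
theorem ufd {σ : Type*} [Finite σ] : UniqueFactorizationMonoid (MvPowerSeries σ K) := by
  obtain ⟨n, ⟨e⟩⟩ := Finite.exists_equiv_fin σ
  exact (renameEquiv K e).symm.toMulEquiv.uniqueFactorizationMonoid (ufd_fin n)

end Fermat.Agent.JAC.Div1.MvPowerSeriesUFD31
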