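import Mathlib

set_option autoImplicit false

namespace Fermat.Agent.JAC.Div1.AdicMap31

open AdicCompletion

section Compare

variable {R : Type*} [CommRing R] {I J : Ideal R}

/-- Adic completeness only depends on the adic topology: if `J ≤ I` and `I ^ k ≤ J`, then
`I`-adic completeness implies `J`-adic completeness. -/
theorem isAdicComplete_of_le_of_pow_le [IsAdicComplete I R] {k : ℕ} (hJI : J ≤ I)
    (hIJ : I ^ k ≤ J) : IsAdicComplete J R := by
  have hJIn : ∀ n : ℕ, (J ^ n • ⊤ : Submodule R R) ≤ I ^ n • ⊤ := fun n =>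
    Submodule.smul_mono_left (Ideal.pow_right_mono hJI n)
  have hIJn : ∀ n : ℕ, (I ^ (k * n) • ⊤ : Submodule R R) ≤ J ^ n • ⊤ := fun n => by
    rw [pow_mul]
    exact Submodule.smul_mono_left (Ideal.pow_right_mono hIJ n)
  have hH : IsHausdorff J R := by
    rw [isHausdorff_iff]
    intro x hx
    exact IsHausdorff.haus (I := I) inferInstance x fun n => (hx n).mono (hJIn n)
  have hP : IsPrecomplete J R := by
    rw [isPrecomplete_iff]
    intro f hf
    obtain ⟨L, hL⟩ := IsPrecomplete.prec (I := I) (M := R) inferInstance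
      (f := f) (fun {m n} hmn => (hf hmn).mono (hJIn m))
    refine ⟨L, fun n => ?_⟩
    have h1 : f n ≡ f (max n (k * n)) [SMOD (J ^ n • ⊤ : Submodule R R)] := hf (le_max_left _ _)
    have h2 : f (max n (k * n)) ≡ L [SMOD (J ^ n • ⊤ : Submodule R R)] := by
      refine SModEq.mono ?_ (hL (max n (k * n)))
      refine le_trans ?_ (hIJn n)
      exact Submodule.smul_mono_left (Ideal.pow_le_pow_right (le_max_right _ _))
    exact h1.trans h2
  exact { toIsHausdorff := hH, toIsPrecomplete := hP }

theorem isAdicComplete_pow [IsAdicComplete I R] {k : ℕ} (hk : k ≠ 0) :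
    IsAdicComplete (I ^ k) R :=
  isAdicComplete_of_le_of_pow_le (I := I) (Ideal.pow_le_self hk) le_rfl

end Compare

section Endo

/-- A surjective ring endomorphism of a Noetherian ring is injective. -/
theorem injective_of_surjective_ringHom {R : Type*} [CommRing R] [IsNoetherianRing R]
    (f : R →+* R) (hf : Function.Surjective f) : Function.Injective f := by
  let c : ℕ →o Ideal R :=
    ⟨fun n => RingHom.ker (f ^ n), by
      refine monotone_nat_of_le_succ fun n x hx => ?_
      rw [RingHom.mem_ker] at hx ⊢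
      rw [pow_succ', RingHom.mul_def, RingHom.comp_apply, hx, _root_.map_zero]⟩
  obtain ⟨n, hn⟩ := monotone_stabilizes_iff_noetherian.mpr (inferInstance : IsNoetherian R R) c
  have hfn : Function.Surjective (f ^ n) := by
    rw [RingHom.coe_pow]
    exact hf.iterate n
  rw [injective_iff_map_eq_zero]
  intro x hx
  obtain ⟨y, rfl⟩ := hfn x
  have hy : y ∈ c (n + 1) := by
    change y ∈ RingHom.ker (f ^ (n + 1))
    rw [RingHom.mem_ker, pow_succ', RingHom.mul_def, RingHom.comp_apply, hx]
  rw [← hn (n + 1) (Nat.le_succ n)] at hy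
  exact hy

end Endo

section Map

variable {A B : Type*} [CommRing A] [CommRing B] {I : Ideal A} {J : Ideal B}
  (g : A →+* B) (hg : I.map g ≤ J)

include hg in
theorem pow_le_comap_pow (n : ℕ) : I ^ n ≤ (J ^ n).comap g := by
  rw [← Ideal.map_le_iff_le_comap, Ideal.map_pow]
  exact Ideal.pow_right_mono hg n

theorem mapRingHom_compat {m n : ℕ} (hle : m ≤ n) :
    (Ideal.Quotient.factorPow J hle).comp
      ((Ideal.quotientMap (J ^ n) g (pow_le_comap_pow g hg n)).comp
        (AdicCompletion.evalₐ I n : AdicCompletion I A →+* A ⧸ I ^ n)) =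
    (Ideal.quotientMap (J ^ m) g (pow_le_comap_pow g hg m)).comp
        (AdicCompletion.evalₐ I m : AdicCompletion I A →+* A ⧸ I ^ m) := by
  ext x
  obtain ⟨a, rfl⟩ := AdicCompletion.mk_surjective I A x
  simp only [RingHom.comp_apply, RingHom.coe_coe, evalₐ_mk, Ideal.quotientMap_mk]
  rw [Ideal.Quotient.factor_mk]
  rw [Ideal.Quotient.mk_eq_mk_iff_sub_mem, ← map_sub]
  apply pow_le_comap_pow g hg m
  rw [← Ideal.Quotient.mk_eq_mk_iff_sub_mem]
  exact AdicCompletion.Ideal.mk_eq_mk I hle a

/-- Functoriality of adic completions of rings. -/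
noncomputable def mapRingHom : AdicCompletion I A →+* AdicCompletion J B :=
  AdicCompletion.liftRingHom J
    (fun n => (Ideal.quotientMap (J ^ n) g (pow_le_comap_pow g hg n)).comp
      (AdicCompletion.evalₐ I n : AdicCompletion I A →+* A ⧸ I ^ n))
    (mapRingHom_compat g hg)

theorem evalₐ_mapRingHom (n : ℕ) (x : AdicCompletion I A) :
    evalₐ J n (mapRingHom g hg x) =
      Ideal.quotientMap (J ^ n) g (pow_le_comap_pow g hg n) (evalₐ I n x) :=
  evalₐ_liftRingHom J _ (mapRingHom_compat g hg) n x

theorem mapRingHom_of (a : A) : mapRingHom g hg (of I A a) = of J B (g a) := by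
  refine AdicCompletion.ext_evalₐ fun n => ?_
  rw [evalₐ_mapRingHom, evalₐ_of, evalₐ_of, Ideal.quotientMap_mk]

end Map

end Fermat.Agent.JAC.Div1.AdicMap31
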