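import Mathlib
import Fermat.Agent.JAC.Div1.AdicMap31
import Fermat.Agent.JAC.Div1.MvPowerSeriesComplete31

set_option autoImplicit false

namespace Fermat.Agent.JAC.Div1.SmoothCompletion31

open IsLocalRing

variable {K C : Type*} [Field K] [CommRing C] [Algebra K C] [IsLocalRing C]

/-- A scalar from the field `K` lying in the maximal ideal vanishes. -/
theorem eq_zero_of_algebraMap_mem {a : K} (ha : algebraMap K C a ∈ maximalIdeal C) : a = 0 := by
  by_contra h
  exact (mem_maximalIdeal _).1 ha ((isUnit_iff_ne_zero.2 h).map (algebraMap K C))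

variable [IsNoetherianRing C]

/-- **Coordinates**: elements of the maximal ideal lifting a basis of the cotangent space. -/
theorem exists_coords : ∃ (n : ℕ) (x : Fin n → C), (∀ i, x i ∈ maximalIdeal C) ∧
    Ideal.span (Set.range x) = maximalIdeal C ∧
    ∀ (a : K) (b : Fin n → K),
      algebraMap K C a + ∑ i, algebraMap K C (b i) * x i ∈ maximalIdeal C ^ 2 →
        a = 0 ∧ ∀ i, b i = 0 := by
  classical
  let bas : Module.Basis (Fin (Module.finrank (ResidueField C) (CotangentSpace C)))
    (ResidueField C) (CotangentSpace C) := Module.finBasis _ _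
  have hsurj := (maximalIdeal C).toCotangent_surjective
  choose x' hx' using fun i => hsurj (bas i)
  refine ⟨_, fun i => (x' i : C), fun i => (x' i).2, ?_, ?_⟩
  · have h1 : Submodule.span (ResidueField C)
        ((maximalIdeal C).toCotangent '' Set.range x') = ⊤ := by
      rw [← Set.range_comp]
      have : (maximalIdeal C).toCotangent ∘ x' = bas := funext hx'
      rw [this]
      exact bas.span_eq
    rw [CotangentSpace.span_image_eq_top_iff] at h1
    have h2 := congrArg (Submodule.map (maximalIdeal C).subtype) h1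
    rw [Submodule.map_span, Submodule.map_top, Submodule.range_subtype, ← Set.range_comp] at h2
    exact h2
  · intro a b hab
    have hs : ∑ i, algebraMap K C (b i) * (x' i : C) ∈ maximalIdeal C :=
      Ideal.sum_mem _ fun i _ => Ideal.mul_mem_left _ _ (x' i).2
    have ha : a = 0 := by
      apply eq_zero_of_algebraMap_mem (C := C)
      have h1 : algebraMap K C a + ∑ i, algebraMap K C (b i) * (x' i : C) ∈ maximalIdeal C :=
        Ideal.pow_le_self two_ne_zero hab
      exact (Ideal.add_mem_iff_left _ hs).1 h1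
    refine ⟨ha, ?_⟩
    rw [ha, map_zero, zero_add] at hab
    have h3 : (maximalIdeal C).toCotangent (∑ i, algebraMap K C (b i) • x' i) = 0 := by
      rw [Ideal.toCotangent_eq_zero]
      convert hab using 1
      simp [Algebra.smul_def]
    rw [map_sum] at h3
    simp only [map_smul, hx'] at h3
    have h4 : ∑ i, algebraMap C (ResidueField C) (algebraMap K C (b i)) • bas i = 0 := by
      rw [← h3]
      refine Finset.sum_congr rfl fun i _ => ?_
      rw [algebraMap_smul]
    have h5 := Fintype.linearIndependent_iff.1 bas.linearIndependent _ h4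
    intro i
    apply eq_zero_of_algebraMap_mem (C := C)
    have := h5 i
    rwa [ResidueField.algebraMap_eq, residue_eq_zero_iff] at this

section Phi

open AdicMap31 MvPowerSeriesComplete31

variable {n : ℕ} (x : Fin n → C) (hx : ∀ i, x i ∈ maximalIdeal C)

include hx in
omit [IsNoetherianRing C] in
theorem map_idealOfVars_le :
    (MvPolynomial.idealOfVars (Fin n) K).map
      ((MvPolynomial.aeval x : MvPolynomial (Fin n) K →ₐ[K] C) : MvPolynomial (Fin n) K →+* C) ≤
      maximalIdeal C := by
  rw [MvPolynomial.idealOfVars, Ideal.map_span, Ideal.span_le]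
  rintro _ ⟨_, ⟨i, rfl⟩, rfl⟩
  simpa using hx i

/-- The map `K⟦X⟧ → Ĉ`, `X i ↦ x i`. -/
noncomputable def phi : MvPowerSeries (Fin n) K →+* AdicCompletion (maximalIdeal C) C :=
  (mapRingHom _ (map_idealOfVars_le (K := K) x hx)).comp
    (MvPowerSeries.toAdicCompletion (Fin n) K : MvPowerSeries (Fin n) K →+*
      AdicCompletion (MvPolynomial.idealOfVars (Fin n) K) (MvPolynomial (Fin n) K))

omit [IsNoetherianRing C] in
theorem phi_coe (p : MvPolynomial (Fin n) K) :
    phi x hx (p : MvPowerSeries (Fin n) K) =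
      AdicCompletion.of (maximalIdeal C) C (MvPolynomial.aeval x p) := by
  rw [phi, RingHom.comp_apply]
  erw [MvPowerSeries.toAdicCompletion_coe]
  rw [mapRingHom_of]
  rfl

omit [IsNoetherianRing C] in
theorem phi_X (i : Fin n) :
    phi x hx (MvPowerSeries.X i : MvPowerSeries (Fin n) K) =
      AdicCompletion.of (maximalIdeal C) C (x i) := by
  rw [← MvPolynomial.coe_X, phi_coe, MvPolynomial.aeval_X]

omit [IsNoetherianRing C] in
theorem phi_C (a : K) :
    phi x hx (MvPowerSeries.C a : MvPowerSeries (Fin n) K) =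
      AdicCompletion.of (maximalIdeal C) C (algebraMap K C a) := by
  rw [← MvPolynomial.coe_C, phi_coe, MvPolynomial.aeval_C]

omit [IsNoetherianRing C] in
theorem algebraMap_eq_of (c : C) :
    algebraMap C (AdicCompletion (maximalIdeal C) C) c = AdicCompletion.of (maximalIdeal C) C c :=
  rfl

theorem map_phi_maximalIdeal (hspan : Ideal.span (Set.range x) = maximalIdeal C) :
    (maximalIdeal (MvPowerSeries (Fin n) K)).map (phi x hx) =
      maximalIdeal (AdicCompletion (maximalIdeal C) C) := by
  rw [maximalIdeal_eq_span_range_X, Ideal.map_span, ← Set.range_comp,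
    AdicCompletion.maximalIdeal_eq_map]
  have h2 : Ideal.map (algebraMap C (AdicCompletion (maximalIdeal C) C)) (maximalIdeal C) =
      Ideal.map (algebraMap C (AdicCompletion (maximalIdeal C) C)) (Ideal.span (Set.range x)) :=
    congrArg _ hspan.symm
  rw [h2, Ideal.map_span, ← Set.range_comp]
  congr 2
  funext i
  simp only [Function.comp_apply, phi_X, algebraMap_eq_of]

theorem exists_sub_of_algebraMap_mem
    (hres : Function.Surjective (algebraMap K (ResidueField C)))
    (y : AdicCompletion (maximalIdeal C) C) :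
    ∃ a : K, y - AdicCompletion.of (maximalIdeal C) C (algebraMap K C a) ∈
      maximalIdeal (AdicCompletion (maximalIdeal C) C) := by
  obtain ⟨w, hw⟩ := (AdicCompletion.residueField_map_bijective C).2
    (residue (AdicCompletion (maximalIdeal C) C) y)
  obtain ⟨a, rfl⟩ := hres w
  refine ⟨a, ?_⟩
  rw [IsScalarTower.algebraMap_apply K C (ResidueField C), ResidueField.algebraMap_eq,
    ResidueField.map_residue] at hw
  rw [← residue_eq_zero_iff, map_sub, ← hw, algebraMap_eq_of, sub_self]

theorem phi_surjective (hspan : Ideal.span (Set.range x) = maximalIdeal C)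
    (hres : Function.Surjective (algebraMap K (ResidueField C))) :
    Function.Surjective (phi (K := K) x hx) := by
  have hmap := map_phi_maximalIdeal (K := K) x hx hspan
  have : IsHausdorff ((maximalIdeal (MvPowerSeries (Fin n) K)).map (phi x hx))
      (AdicCompletion (maximalIdeal C) C) := by
    rw [hmap]
    infer_instance
  apply surjective_of_mk_map_comp_surjective (I := maximalIdeal (MvPowerSeries (Fin n) K))
  intro y
  obtain ⟨y, rfl⟩ := Ideal.Quotient.mk_surjective y
  obtain ⟨a, ha⟩ := exists_sub_of_algebraMap_mem hres y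
  refine ⟨MvPowerSeries.C a, ?_⟩
  rw [RingHom.comp_apply, phi_C, Ideal.Quotient.eq, hmap, ← neg_sub, neg_mem_iff]
  exact ha

end Phi

section Level2

open AdicMap31 MvPowerSeriesComplete31

theorem eq_zero_or_single_of_degree_lt_two {n : ℕ} {e : Fin n →₀ ℕ} (he : e.degree < 2) :
    e = 0 ∨ ∃ i, e = Finsupp.single i 1 := by
  by_cases h0 : e = 0
  · exact Or.inl h0
  · right
    obtain ⟨i, hi⟩ : ∃ i, e i ≠ 0 := by
      by_contra h
      push Not at h
      exact h0 (Finsupp.ext h)
    refine ⟨i, ?_⟩
    have hle : Finsupp.single i 1 ≤ e := by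
      rw [Finsupp.single_le_iff]
      exact Nat.one_le_iff_ne_zero.2 hi
    have hdec : e = (e - Finsupp.single i 1) + Finsupp.single i 1 := (tsub_add_cancel_of_le hle).symm
    have hdeg : e.degree = (e - Finsupp.single i 1).degree + 1 := by
      conv_lhs => rw [hdec]
      rw [map_add, Finsupp.degree_single]
    have h1 : (e - Finsupp.single i 1).degree = 0 := by omega
    rw [Finsupp.degree_eq_zero_iff] at h1
    rw [hdec, h1, zero_add]

variable {n : ℕ} (x : Fin n → C) (hx : ∀ i, x i ∈ maximalIdeal C)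

include hx in
omit [IsNoetherianRing C] in
theorem mem_sq_of_aeval_mem_sq
    (hind : ∀ (a : K) (b : Fin n → K),
      algebraMap K C a + ∑ i, algebraMap K C (b i) * x i ∈ maximalIdeal C ^ 2 →
        a = 0 ∧ ∀ i, b i = 0)
    (p : MvPolynomial (Fin n) K) (hp : MvPolynomial.aeval x p ∈ maximalIdeal C ^ 2) :
    p ∈ MvPolynomial.idealOfVars (Fin n) K ^ 2 := by
  classical
  set a : K := p.coeff 0 with ha
  set b : Fin n → K := fun i => p.coeff (Finsupp.single i 1) with hb
  set q : MvPolynomial (Fin n) K :=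
    MvPolynomial.C a + ∑ i, MvPolynomial.C (b i) * MvPolynomial.X i with hq
  have hr : p - q ∈ MvPolynomial.idealOfVars (Fin n) K ^ 2 := by
    rw [MvPolynomial.mem_pow_idealOfVars_iff']
    intro e he
    rcases eq_zero_or_single_of_degree_lt_two he with rfl | ⟨j, rfl⟩
    · simp [hq, ha, MvPolynomial.coeff_sum, MvPolynomial.coeff_C_mul, MvPolynomial.coeff_X]
    · have hne : (0 : Fin n →₀ ℕ) ≠ Finsupp.single j 1 := by
        intro h
        have := congrArg (fun f => f j) h
        simp at this
      simp [hq, hb, MvPolynomial.coeff_sum, MvPolynomial.coeff_C_mul, MvPolynomial.coeff_X,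
        MvPolynomial.coeff_C, Finsupp.single_eq_single_iff, hne]
  have hr' : MvPolynomial.aeval x (p - q) ∈ maximalIdeal C ^ 2 :=
    pow_le_comap_pow _ (map_idealOfVars_le (K := K) x hx) 2 hr
  have hq' : MvPolynomial.aeval x q ∈ maximalIdeal C ^ 2 := by
    have := sub_mem hp hr'
    rwa [← map_sub, sub_sub_cancel] at this
  have hq'' : MvPolynomial.aeval x q = algebraMap K C a + ∑ i, algebraMap K C (b i) * x i := by
    simp [hq]
  rw [hq''] at hq'
  obtain ⟨ha0, hb0⟩ := hind a b hq'
  have hq0 : q = 0 := by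
    rw [hq, ha0]
    simp [hb0]
  rwa [hq0, sub_zero] at hr

omit [IsNoetherianRing C] in
theorem exists_sub_algebraMap_mem
    (hres : Function.Surjective (algebraMap K (ResidueField C))) (c : C) :
    ∃ a : K, c - algebraMap K C a ∈ maximalIdeal C := by
  obtain ⟨a, ha⟩ := hres (residue C c)
  refine ⟨a, ?_⟩
  rw [IsScalarTower.algebraMap_apply K C (ResidueField C), ResidueField.algebraMap_eq] at ha
  rw [← residue_eq_zero_iff, map_sub, ha, sub_self]

include hx in
omit [IsNoetherianRing C] in
theorem exists_aeval_sub_mem_sq (hspan : Ideal.span (Set.range x) = maximalIdeal C)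
    (hres : Function.Surjective (algebraMap K (ResidueField C))) (c : C) :
    ∃ p : MvPolynomial (Fin n) K, MvPolynomial.aeval x p - c ∈ maximalIdeal C ^ 2 := by
  obtain ⟨a, ha⟩ := exists_sub_algebraMap_mem hres c
  rw [← hspan, Ideal.mem_span_range_iff_exists_fun] at ha
  obtain ⟨d, hd⟩ := ha
  choose b hb using fun i => exists_sub_algebraMap_mem hres (d i)
  refine ⟨MvPolynomial.C a + ∑ i, MvPolynomial.C (b i) * MvPolynomial.X i, ?_⟩
  have h1 : MvPolynomial.aeval x
      (MvPolynomial.C a + ∑ i, MvPolynomial.C (b i) * MvPolynomial.X i) - c =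
      - ∑ i, (d i - algebraMap K C (b i)) * x i := by
    have h2 : c = algebraMap K C a + ∑ i, d i * x i := by
      rw [hd]
      ring
    rw [h2]
    simp only [map_add, map_sum, map_mul, MvPolynomial.aeval_C, MvPolynomial.aeval_X, sub_mul,
      Finset.sum_sub_distrib]
    ring
  rw [h1]
  refine neg_mem (Ideal.sum_mem _ fun i _ => ?_)
  rw [pow_two]
  exact Ideal.mul_mem_mul (hb i) (hx i)

end Level2

section Psi

open AdicMap31 MvPowerSeriesComplete31

variable {n : ℕ} (x : Fin n → C) (hx : ∀ i, x i ∈ maximalIdeal C)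

/-- `K[X]/(X)² → C/m²`. -/
noncomputable def g2 :
    (MvPolynomial (Fin n) K ⧸ MvPolynomial.idealOfVars (Fin n) K ^ 2) →ₐ[K]
      C ⧸ maximalIdeal C ^ 2 :=
  Ideal.quotientMapₐ (maximalIdeal C ^ 2) (MvPolynomial.aeval x)
    (pow_le_comap_pow _ (map_idealOfVars_le (K := K) x hx) 2)

omit [IsNoetherianRing C] in
theorem g2_mk (p : MvPolynomial (Fin n) K) :
    g2 x hx (Ideal.Quotient.mk _ p) = Ideal.Quotient.mk _ (MvPolynomial.aeval x p) := rfl

omit [IsNoetherianRing C] in
theorem g2_bijective
    (hind : ∀ (a : K) (b : Fin n → K),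
      algebraMap K C a + ∑ i, algebraMap K C (b i) * x i ∈ maximalIdeal C ^ 2 →
        a = 0 ∧ ∀ i, b i = 0)
    (hspan : Ideal.span (Set.range x) = maximalIdeal C)
    (hres : Function.Surjective (algebraMap K (ResidueField C))) :
    Function.Bijective (g2 (K := K) x hx) := by
  constructor
  · rw [injective_iff_map_eq_zero]
    intro y hy
    obtain ⟨p, rfl⟩ := Ideal.Quotient.mk_surjective y
    rw [g2_mk, Ideal.Quotient.eq_zero_iff_mem] at hy
    rw [Ideal.Quotient.eq_zero_iff_mem]
    exact mem_sq_of_aeval_mem_sq x hx hind p hy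
  · intro y
    obtain ⟨c, rfl⟩ := Ideal.Quotient.mk_surjective y
    obtain ⟨p, hp⟩ := exists_aeval_sub_mem_sq (K := K) x hx hspan hres c
    exact ⟨Ideal.Quotient.mk _ p, by rw [g2_mk, Ideal.Quotient.eq]; exact hp⟩

theorem coe_algHom_apply (p : MvPolynomial (Fin n) K) :
    MvPolynomial.coeToMvPowerSeries.algHom K p = (p : MvPowerSeries (Fin n) K) := by
  rw [MvPolynomial.coeToMvPowerSeries.algHom_apply, Algebra.algebraMap_self, MvPowerSeries.map_id]
  rfl

theorem map_coe_idealOfVars_le :
    (MvPolynomial.idealOfVars (Fin n) K).map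
      ((MvPolynomial.coeToMvPowerSeries.algHom K :
        MvPolynomial (Fin n) K →ₐ[K] MvPowerSeries (Fin n) K) :
        MvPolynomial (Fin n) K →+* MvPowerSeries (Fin n) K) ≤
      maximalIdeal (MvPowerSeries (Fin n) K) := by
  rw [MvPolynomial.idealOfVars, Ideal.map_span, Ideal.span_le, maximalIdeal_eq_span_range_X]
  rintro _ ⟨_, ⟨i, rfl⟩, rfl⟩
  apply Ideal.subset_span
  refine ⟨i, ?_⟩
  simp

/-- `K[X]/(X)² → K⟦X⟧/n²`. -/
noncomputable def iota2 :
    (MvPolynomial (Fin n) K ⧸ MvPolynomial.idealOfVars (Fin n) K ^ 2) →ₐ[K]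
      MvPowerSeries (Fin n) K ⧸ maximalIdeal (MvPowerSeries (Fin n) K) ^ 2 :=
  Ideal.quotientMapₐ _ (MvPolynomial.coeToMvPowerSeries.algHom K)
    (pow_le_comap_pow _ (map_coe_idealOfVars_le (K := K) (n := n)) 2)

theorem iota2_mk (p : MvPolynomial (Fin n) K) :
    iota2 (Ideal.Quotient.mk _ p) =
      Ideal.Quotient.mk (maximalIdeal (MvPowerSeries (Fin n) K) ^ 2)
        (p : MvPowerSeries (Fin n) K) := by
  rw [← coe_algHom_apply]
  rfl

/-- The first-order approximation `C → K⟦X⟧/n²` of the inverse of `phi`. -/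
noncomputable def psi2
    (hbij : Function.Bijective (g2 (K := K) x hx)) :
    C →ₐ[K] MvPowerSeries (Fin n) K ⧸ maximalIdeal (MvPowerSeries (Fin n) K) ^ 2 :=
  iota2.comp (((AlgEquiv.ofBijective (g2 (K := K) x hx) hbij).symm : _ →ₐ[K] _).comp
    (Ideal.Quotient.mkₐ K (maximalIdeal C ^ 2)))

omit [IsNoetherianRing C] in
theorem psi2_apply (hbij : Function.Bijective (g2 (K := K) x hx)) (i : Fin n) :
    psi2 x hx hbij (x i) = Ideal.Quotient.mk _ (MvPowerSeries.X i) := by
  have h1 : (AlgEquiv.ofBijective (g2 (K := K) x hx) hbij).symm (Ideal.Quotient.mk _ (x i)) =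
      Ideal.Quotient.mk _ (MvPolynomial.X i) := by
    rw [AlgEquiv.symm_apply_eq, AlgEquiv.ofBijective_apply, g2_mk, MvPolynomial.aeval_X]
  simp only [psi2, AlgHom.comp_apply, Ideal.Quotient.mkₐ_eq_mk]
  change iota2 ((AlgEquiv.ofBijective (g2 (K := K) x hx) hbij).symm _) = _
  rw [h1, iota2_mk, MvPolynomial.coe_X]

variable [Algebra.FormallySmooth K C]

omit [IsNoetherianRing C] in
/-- **Smoothness lifting**: a `K`-algebra map `C → K⟦X⟧` with `x i ↦ X i` modulo `n²`. -/
theorem exists_psi (hbij : Function.Bijective (g2 (K := K) x hx)) :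
    ∃ ψ : C →ₐ[K] MvPowerSeries (Fin n) K,
      ∀ i, ψ (x i) - MvPowerSeries.X i ∈ maximalIdeal (MvPowerSeries (Fin n) K) ^ 2 := by
  have : IsAdicComplete (maximalIdeal (MvPowerSeries (Fin n) K) ^ 2)
      (MvPowerSeries (Fin n) K) := isAdicComplete_pow two_ne_zero
  obtain ⟨ψ, hψ⟩ := Algebra.FormallySmooth.exists_mkₐ_comp_eq_of_isAdicComplete
    (R := K) (A := C) (S := MvPowerSeries (Fin n) K)
    (I := maximalIdeal (MvPowerSeries (Fin n) K) ^ 2) (psi2 x hx hbij)
  refine ⟨ψ, fun i => ?_⟩
  have := congrArg (fun f => f (x i)) hψ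
  simp only [AlgHom.comp_apply, Ideal.Quotient.mkₐ_eq_mk, psi2_apply] at this
  rwa [← Ideal.Quotient.eq]

end Psi

section Main

open AdicMap31 MvPowerSeriesComplete31

variable {n : ℕ}

omit [IsNoetherianRing C] in
/-- A `K`-algebra map `C → K⟦X⟧` is automatically local. -/
theorem psi_mem (ψ : C →ₐ[K] MvPowerSeries (Fin n) K) {c : C} (hc : c ∈ maximalIdeal C) :
    ψ c ∈ maximalIdeal (MvPowerSeries (Fin n) K) := by
  let ε : C →+* K := (MvPowerSeries.constantCoeff (σ := Fin n) (R := K)).comp
    (ψ : C →+* MvPowerSeries (Fin n) K)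
  have hε : ∀ c, ε c = MvPowerSeries.constantCoeff (ψ c) := fun c => rfl
  have hsurj : Function.Surjective ε := fun a => ⟨algebraMap K C a, by
    rw [hε, ψ.commutes, MvPowerSeries.algebraMap_apply, MvPowerSeries.constantCoeff_C]
    rfl⟩
  have hmax : (RingHom.ker ε).IsMaximal := RingHom.ker_isMaximal_of_surjective ε hsurj
  have hker : RingHom.ker ε = maximalIdeal C := IsLocalRing.eq_maximalIdeal hmax
  rw [← hker, RingHom.mem_ker, hε] at hc
  rw [mem_maximalIdeal, mem_nonunits_iff, MvPowerSeries.isUnit_iff_constantCoeff, hc]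
  exact not_isUnit_zero

omit [IsNoetherianRing C] in
theorem map_psi_le (ψ : C →ₐ[K] MvPowerSeries (Fin n) K) :
    (maximalIdeal C).map (ψ : C →+* MvPowerSeries (Fin n) K) ≤
      maximalIdeal (MvPowerSeries (Fin n) K) :=
  Ideal.map_le_iff_le_comap.2 fun _ hc => psi_mem ψ hc

/-- Extension of `ψ` to the completion. -/
noncomputable def psiHat (ψ : C →ₐ[K] MvPowerSeries (Fin n) K) :
    AdicCompletion (maximalIdeal C) C →+* MvPowerSeries (Fin n) K :=
  ((AdicCompletion.ofAlgEquiv (maximalIdeal (MvPowerSeries (Fin n) K))).symm :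
      AdicCompletion (maximalIdeal (MvPowerSeries (Fin n) K)) (MvPowerSeries (Fin n) K) →+*
        MvPowerSeries (Fin n) K).comp
    (mapRingHom (ψ : C →+* MvPowerSeries (Fin n) K) (map_psi_le ψ))

omit [IsNoetherianRing C] in
theorem psiHat_of (ψ : C →ₐ[K] MvPowerSeries (Fin n) K) (c : C) :
    psiHat ψ (AdicCompletion.of (maximalIdeal C) C c) = ψ c := by
  rw [psiHat, RingHom.comp_apply, mapRingHom_of]
  exact AdicCompletion.ofAlgEquiv_symm_of _ _

/-- An endomorphism of `K⟦X⟧` fixing constants and the variables modulo `n²` is bijective. -/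
theorem bijective_of_X_sub_mem_sq (θ : MvPowerSeries (Fin n) K →+* MvPowerSeries (Fin n) K)
    (hC : ∀ a : K, θ (MvPowerSeries.C a) = MvPowerSeries.C a)
    (hX : ∀ i, θ (MvPowerSeries.X i) - MvPowerSeries.X i ∈
      maximalIdeal (MvPowerSeries (Fin n) K) ^ 2) :
    Function.Bijective θ := by
  set nP := maximalIdeal (MvPowerSeries (Fin n) K) with hnP
  have hXmem : ∀ i, (MvPowerSeries.X i : MvPowerSeries (Fin n) K) ∈ nP := fun i => by
    rw [hnP, maximalIdeal_eq_span_range_X]
    exact Ideal.subset_span ⟨i, rfl⟩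
  have hθX : ∀ i, θ (MvPowerSeries.X i) ∈ nP := fun i => by
    have := add_mem (Ideal.pow_le_self two_ne_zero (hX i)) (hXmem i)
    rwa [sub_add_cancel] at this
  have hJle : nP.map θ ≤ nP := by
    rw [Ideal.map_le_iff_le_comap]
    conv_lhs => rw [hnP, maximalIdeal_eq_span_range_X]
    rw [Ideal.span_le]
    rintro _ ⟨i, rfl⟩
    exact hθX i
  have hleJ : nP ≤ nP.map θ := by
    apply Submodule.le_of_le_smul_of_le_jacobson_bot (I := nP)
      (IsNoetherian.noetherian nP)
      (IsLocalRing.jacobson_eq_maximalIdeal ⊥ bot_ne_top).ge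
    conv_lhs => rw [hnP, maximalIdeal_eq_span_range_X]
    rw [Ideal.span_le]
    rintro _ ⟨i, rfl⟩
    have h1 : θ (MvPowerSeries.X i) ∈ nP.map θ := Ideal.mem_map_of_mem θ (hXmem i)
    have h2 : θ (MvPowerSeries.X i) - MvPowerSeries.X i ∈ nP • nP := by
      rw [smul_eq_mul, ← pow_two]
      exact hX i
    have h3 : (MvPowerSeries.X i : MvPowerSeries (Fin n) K) =
        θ (MvPowerSeries.X i) - (θ (MvPowerSeries.X i) - MvPowerSeries.X i) := by ring
    rw [SetLike.mem_coe, h3]
    exact sub_mem (Submodule.mem_sup_left h1) (Submodule.mem_sup_right h2)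
  have hJ : nP.map θ = nP := le_antisymm hJle hleJ
  have hsurj : Function.Surjective θ := by
    have : IsHausdorff (nP.map θ) (MvPowerSeries (Fin n) K) := by
      rw [hJ]
      infer_instance
    apply surjective_of_mk_map_comp_surjective (I := nP)
    intro y
    obtain ⟨f, rfl⟩ := Ideal.Quotient.mk_surjective y
    refine ⟨MvPowerSeries.C (MvPowerSeries.constantCoeff f), ?_⟩
    rw [RingHom.comp_apply, hC, Ideal.Quotient.eq, hJ, hnP, mem_maximalIdeal, mem_nonunits_iff,
      MvPowerSeries.isUnit_iff_constantCoeff, map_sub, MvPowerSeries.constantCoeff_C, sub_self]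
    exact not_isUnit_zero
  exact ⟨injective_of_surjective_ringHom θ hsurj, hsurj⟩

variable [Algebra.FormallySmooth K C]

/-- **Completion of a formally smooth local algebra with residue field `K`** is a power series
ring. -/
theorem exists_mvPowerSeries_equiv_completion
    (hres : Function.Surjective (algebraMap K (ResidueField C))) :
    ∃ n : ℕ, Nonempty (MvPowerSeries (Fin n) K ≃+* AdicCompletion (maximalIdeal C) C) := by
  obtain ⟨n, x, hx, hspan, hind⟩ := exists_coords (K := K) (C := C)
  have hbij := g2_bijective x hx hind hspan hres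
  obtain ⟨ψ, hψ⟩ := exists_psi x hx hbij
  have hφs := phi_surjective (K := K) x hx hspan hres
  have hθ : Function.Bijective ((psiHat ψ).comp (phi (K := K) x hx)) := by
    apply bijective_of_X_sub_mem_sq
    · intro a
      rw [RingHom.comp_apply, phi_C, psiHat_of, ψ.commutes, MvPowerSeries.algebraMap_apply]
      rfl
    · intro i
      rw [RingHom.comp_apply, phi_X, psiHat_of]
      exact hψ i
  have hφi : Function.Injective (phi (K := K) x hx) := by
    have := hθ.1
    rw [RingHom.coe_comp] at this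
    exact Function.Injective.of_comp this
  exact ⟨n, ⟨RingEquiv.ofBijective _ ⟨hφi, hφs⟩⟩⟩

end Main

end Fermat.Agent.JAC.Div1.SmoothCompletion31
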