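import Mathlib
import Fermat.Agent.JAC.Div1.CompletionUFD31
import Fermat.Agent.JAC.Div1.MvPowerSeriesUFD31
import Fermat.Agent.JAC.Div1.SmoothCompletion31

set_option autoImplicit false

namespace Fermat.Agent.JAC.Div1.Div1Main31

open IsLocalRing

/-- A formally smooth Noetherian local `K`-algebra with residue field `K` (`K` an infinite field)
is a factorial domain. -/
theorem ufd_of_formallySmooth_local {K C : Type*} [Field K] [Infinite K] [CommRing C]
    [Algebra K C] [IsLocalRing C] [IsNoetherianRing C] [Algebra.FormallySmooth K C]
    (hres : Function.Surjective (algebraMap K (ResidueField C))) :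
    IsDomain C ∧ UniqueFactorizationMonoid C := by
  obtain ⟨n, ⟨e⟩⟩ := SmoothCompletion31.exists_mvPowerSeries_equiv_completion (K := K) (C := C) hres
  have hP : IsDomain (MvPowerSeries (Fin n) K) := MvPowerSeriesUFD31.isDomain _
  have hD : IsDomain (AdicCompletion (maximalIdeal C) C) := e.toMulEquiv.isDomain_iff.mp hP
  have hU : UniqueFactorizationMonoid (AdicCompletion (maximalIdeal C) C) :=
    e.toMulEquiv.uniqueFactorizationMonoid MvPowerSeriesUFD31.ufd
  have hC : IsDomain C := CompletionUFD31.isDomain_of_completion C
  exact ⟨hC, CompletionUFD31.ufd_of_completion C⟩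

/-- **DIV1**: the local ring of a smooth algebra over an infinite field at a rational point is a
factorial domain. -/
theorem ufd_localization_atPrime_of_smooth {K B : Type*} [Field K] [Infinite K] [CommRing B]
    [Algebra K B] [Algebra.Smooth K B] (q : Ideal B) [q.IsMaximal]
    (hq : Function.Surjective (algebraMap K (B ⧸ q))) :
    IsDomain (Localization.AtPrime q) ∧ UniqueFactorizationMonoid (Localization.AtPrime q) := by
  have hB : IsNoetherianRing B := Algebra.FiniteType.isNoetherianRing K B
  have hC : IsNoetherianRing (Localization.AtPrime q) :=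
    IsLocalization.isNoetherianRing q.primeCompl _ hB
  have hs1 : Algebra.FormallySmooth B (Localization.AtPrime q) :=
    Algebra.FormallySmooth.of_isLocalization q.primeCompl
  have hs : Algebra.FormallySmooth K (Localization.AtPrime q) :=
    Algebra.FormallySmooth.comp K B (Localization.AtPrime q)
  apply ufd_of_formallySmooth_local (K := K)
  intro z
  obtain ⟨y, rfl⟩ := (IsLocalization.AtPrime.equivQuotMaximalIdeal q
    (Localization.AtPrime q)).surjective z
  obtain ⟨a, rfl⟩ := hq y
  refine ⟨a, ?_⟩
  rw [IsScalarTower.algebraMap_apply K B (B ⧸ q), Ideal.Quotient.algebraMap_eq,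
    IsLocalization.AtPrime.equivQuotMaximalIdeal_apply_mk,
    IsScalarTower.algebraMap_apply K (Localization.AtPrime q) (ResidueField (Localization.AtPrime q)),
    IsScalarTower.algebraMap_apply K B (Localization.AtPrime q)]
  rfl

/-- Version for algebraically closed fields. -/
theorem ufd_localization_atPrime_of_smooth_of_isAlgClosed {K B : Type*} [Field K] [IsAlgClosed K]
    [CommRing B] [Algebra K B] [Algebra.Smooth K B] (q : Ideal B) [q.IsMaximal] :
    IsDomain (Localization.AtPrime q) ∧ UniqueFactorizationMonoid (Localization.AtPrime q) := by
  have : Infinite K := IsAlgClosed.instInfinite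
  refine ufd_localization_atPrime_of_smooth (K := K) q ?_
  have hfield : IsField (B ⧸ q) :=
    (Ideal.Quotient.maximal_ideal_iff_isField_quotient q).1 inferInstance
  let _ := hfield.toField
  have hfin : Module.Finite K (B ⧸ q) := finite_of_finite_type_of_isJacobsonRing K (B ⧸ q)
  have hint : Algebra.IsIntegral K (B ⧸ q) := Algebra.IsIntegral.of_finite K (B ⧸ q)
  exact (IsAlgClosed.algebraMap_bijective_of_isIntegral (k := K) (K := B ⧸ q)).2

/-- Localizing a factorial local domain `B_q` further at a prime: still a factorial domain,
expressed on `Localization.AtPrime` of the contracted prime. -/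
theorem ufd_localization_comap {B : Type*} [CommRing B] (q : Ideal B) [q.IsPrime]
    (hD : IsDomain (Localization.AtPrime q))
    (hU : UniqueFactorizationMonoid (Localization.AtPrime q))
    (p' : Ideal (Localization.AtPrime q)) [p'.IsPrime] :
    IsDomain (Localization.AtPrime (p'.comap (algebraMap B (Localization.AtPrime q)))) ∧
      UniqueFactorizationMonoid
        (Localization.AtPrime (p'.comap (algebraMap B (Localization.AtPrime q)))) := by
  have hD' : IsDomain (Localization.AtPrime p') :=
    IsLocalization.isDomain_localization (le_nonZeroDivisors_of_noZeroDivisors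
      (fun h => h (Ideal.zero_mem p')))
  have hU' : UniqueFactorizationMonoid (Localization.AtPrime p') :=
    UniqueFactorizationMonoid.of_isLocalization p'.primeCompl _
  let e := IsLocalization.localizationLocalizationAtPrimeIsoLocalization q.primeCompl p'
  exact ⟨e.toMulEquiv.isDomain_iff.mpr hD', e.symm.toMulEquiv.uniqueFactorizationMonoid hU'⟩

theorem ufd_localization_of_eq_comap {B : Type*} [CommRing B] (q : Ideal B) [q.IsPrime]
    (hD : IsDomain (Localization.AtPrime q))
    (hU : UniqueFactorizationMonoid (Localization.AtPrime q))
    (p' : Ideal (Localization.AtPrime q)) [p'.IsPrime] (p : Ideal B) [p.IsPrime]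
    (h : p = p'.comap (algebraMap B (Localization.AtPrime q))) :
    IsDomain (Localization.AtPrime p) ∧ UniqueFactorizationMonoid (Localization.AtPrime p) := by
  subst h
  exact ufd_localization_comap q hD hU p'

/-- A prime below `q` has factorial local ring as soon as `B_q` is a factorial domain. -/
theorem ufd_localization_of_le {B : Type*} [CommRing B] (q : Ideal B) [q.IsPrime]
    (hD : IsDomain (Localization.AtPrime q))
    (hU : UniqueFactorizationMonoid (Localization.AtPrime q))
    (p : Ideal B) [hp : p.IsPrime] (hpq : p ≤ q) :
    IsDomain (Localization.AtPrime p) ∧ UniqueFactorizationMonoid (Localization.AtPrime p) := by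
  have hdisj : Disjoint (q.primeCompl : Set B) (p : Set B) := by
    rw [Set.disjoint_left]
    intro b hb hbp
    exact hb (hpq hbp)
  have hprime : (p.map (algebraMap B (Localization.AtPrime q))).IsPrime :=
    IsLocalization.isPrime_of_isPrime_disjoint q.primeCompl _ p hp hdisj
  have hcomap : (p.map (algebraMap B (Localization.AtPrime q))).comap
      (algebraMap B (Localization.AtPrime q)) = p :=
    IsLocalization.under_map_of_isPrime_disjoint q.primeCompl _ hp hdisj
  exact ufd_localization_of_eq_comap q hD hU _ p hcomap.symm

/-- **DIV1, all points**: every local ring of a smooth algebra over an algebraically closed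
field is a factorial domain. -/
theorem ufd_localization_atPrime_of_smooth_of_isAlgClosed' {K B : Type*} [Field K]
    [IsAlgClosed K] [CommRing B] [Algebra K B] [Algebra.Smooth K B] (p : Ideal B) [p.IsPrime] :
    IsDomain (Localization.AtPrime p) ∧ UniqueFactorizationMonoid (Localization.AtPrime p) := by
  obtain ⟨q, hq, hpq⟩ := Ideal.exists_le_maximal p (Ideal.IsPrime.ne_top inferInstance)
  obtain ⟨hD, hU⟩ := ufd_localization_atPrime_of_smooth_of_isAlgClosed (K := K) q
  exact ufd_localization_of_le q hD hU p hpq

end Fermat.Agent.JAC.Div1.Div1Main31
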