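import Mathlib
import Fermat.Agent.JAC.Div1.Div1Main31

set_option autoImplicit false

universe u

open AlgebraicGeometry CategoryTheory

namespace Fermat.Agent.JAC.Div1.SchemeUFD31

variable {K : Type u} [Field K] [IsAlgClosed K] {X : Scheme.{u}}
  (f : X ⟶ Spec (CommRingCat.of K))

/-- **DIV1 on schemes**: every local ring of a smooth scheme over an algebraically closed field is
a factorial domain. -/
theorem ufd_stalk_of_smooth [Smooth f] (x : X) :
    IsDomain (X.presheaf.stalk x) ∧ UniqueFactorizationMonoid (X.presheaf.stalk x) := by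
  obtain ⟨V, hV, hxV⟩ : ∃ V : X.Opens, IsAffineOpen V ∧ x ∈ V := by
    obtain ⟨_, ⟨V, hV, rfl⟩, hxV, -⟩ :=
      X.isBasis_affineOpens.exists_subset_of_mem_open (Set.mem_univ x) isOpen_univ
    exact ⟨V, hV, hxV⟩
  have hsm : (f.appLE ⊤ V le_top).hom.Smooth :=
    Smooth.smooth_appLE f (isAffineOpen_top _) hV _
  let φ : K →+* Γ(X, V) :=
    (f.appLE ⊤ V le_top).hom.comp (Scheme.ΓSpecIso (CommRingCat.of K)).inv.hom
  have hφ : φ.Smooth :=
    RingHom.Smooth.comp (RingHom.Smooth.of_bijective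
      (ConcreteCategory.bijective_of_isIso (Scheme.ΓSpecIso (CommRingCat.of K)).inv)) hsm
  let _ : Algebra K Γ(X, V) := φ.toAlgebra
  have hS : Algebra.Smooth K Γ(X, V) := hφ
  let _ := X.presheaf.algebra_section_stalk ⟨x, hxV⟩
  have hloc := hV.isLocalization_stalk ⟨x, hxV⟩
  obtain ⟨hD, hU⟩ := Div1Main31.ufd_localization_atPrime_of_smooth_of_isAlgClosed' (K := K)
    (hV.primeIdealOf ⟨x, hxV⟩).asIdeal
  let e := IsLocalization.algEquiv (hV.primeIdealOf ⟨x, hxV⟩).asIdeal.primeCompl
    (Localization.AtPrime (hV.primeIdealOf ⟨x, hxV⟩).asIdeal) (X.presheaf.stalk x)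
  exact ⟨e.toMulEquiv.isDomain_iff.mp hD, e.toMulEquiv.uniqueFactorizationMonoid hU⟩

/-- The same under the hypothesis of `S26`. -/
theorem ufd_stalk_of_smoothOfRelativeDimension (g : ℕ) [SmoothOfRelativeDimension g f] (x : X) :
    IsDomain (X.presheaf.stalk x) ∧ UniqueFactorizationMonoid (X.presheaf.stalk x) := by
  have : Smooth f := SmoothOfRelativeDimension.smooth g f
  exact ufd_stalk_of_smooth f x

end Fermat.Agent.JAC.Div1.SchemeUFD31
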