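import Mathlib
import Fermat.Agent.JAC.Div1.SmoothCompletion31

set_option autoImplicit false

namespace Fermat.Agent.JAC.Div1.SmoothCompletionParam31

open IsLocalRing SmoothCompletion31

variable {K C : Type*} [Field K] [CommRing C] [Algebra K C] [IsLocalRing C] [IsNoetherianRing C]

/-- Elements of the maximal ideal whose classes form a basis of the cotangent space are
"coordinates": they generate the maximal ideal and are `K`-linearly independent modulo `m²`
together with `1`. -/
theorem coords_of_linearIndependent {n : ℕ} (t : Fin n → maximalIdeal C)
    (hli : LinearIndependent (ResidueField C) fun i => (maximalIdeal C).toCotangent (t i))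
    (hsp : ⊤ ≤ Submodule.span (ResidueField C)
      (Set.range fun i => (maximalIdeal C).toCotangent (t i))) :
    Ideal.span (Set.range fun i => (t i : C)) = maximalIdeal C ∧
    ∀ (a : K) (b : Fin n → K),
      algebraMap K C a + ∑ i, algebraMap K C (b i) * (t i : C) ∈ maximalIdeal C ^ 2 →
        a = 0 ∧ ∀ i, b i = 0 := by
  classical
  constructor
  · have h1 : Submodule.span (ResidueField C)
        ((maximalIdeal C).toCotangent '' Set.range t) = ⊤ := by
      rw [← Set.range_comp]
      exact top_le_iff.1 hsp
    rw [CotangentSpace.span_image_eq_top_iff] at h1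
    have h2 := congrArg (Submodule.map (maximalIdeal C).subtype) h1
    rw [Submodule.map_span, Submodule.map_top, Submodule.range_subtype, ← Set.range_comp] at h2
    exact h2
  · intro a b hab
    have hs : ∑ i, algebraMap K C (b i) * (t i : C) ∈ maximalIdeal C :=
      Ideal.sum_mem _ fun i _ => Ideal.mul_mem_left _ _ (t i).2
    have ha : a = 0 := by
      apply eq_zero_of_algebraMap_mem (C := C)
      have h1 : algebraMap K C a + ∑ i, algebraMap K C (b i) * (t i : C) ∈ maximalIdeal C :=
        Ideal.pow_le_self two_ne_zero hab
      exact (Ideal.add_mem_iff_left _ hs).1 h1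
    refine ⟨ha, ?_⟩
    rw [ha, map_zero, zero_add] at hab
    have h3 : (maximalIdeal C).toCotangent (∑ i, algebraMap K C (b i) • t i) = 0 := by
      rw [Ideal.toCotangent_eq_zero]
      convert hab using 1
      simp [Algebra.smul_def]
    rw [map_sum] at h3
    simp only [map_smul] at h3
    have h4 : ∑ i, algebraMap C (ResidueField C) (algebraMap K C (b i)) •
        (maximalIdeal C).toCotangent (t i) = 0 := by
      rw [← h3]
      refine Finset.sum_congr rfl fun i _ => ?_
      rw [algebraMap_smul]
    have h5 := Fintype.linearIndependent_iff.1 hli _ h4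
    intro i
    apply eq_zero_of_algebraMap_mem (C := C)
    have := h5 i
    rwa [ResidueField.algebraMap_eq, residue_eq_zero_iff] at this

variable [Algebra.FormallySmooth K C]

/-- **Parametrised Cohen structure theorem at a smooth rational point**: for any coordinates
`t` (a lift of a basis of the cotangent space), there is a `K`-algebra isomorphism
`Ĉ ≃ K⟦X⟧` sending `t i` to `X i`. -/
theorem exists_algEquiv_completion_of_coords
    (hres : Function.Surjective (algebraMap K (ResidueField C))) {n : ℕ}
    (t : Fin n → maximalIdeal C)
    (hli : LinearIndependent (ResidueField C) fun i => (maximalIdeal C).toCotangent (t i))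
    (hsp : ⊤ ≤ Submodule.span (ResidueField C)
      (Set.range fun i => (maximalIdeal C).toCotangent (t i))) :
    ∃ e : AdicCompletion (maximalIdeal C) C ≃ₐ[K] MvPowerSeries (Fin n) K,
      ∀ i, e (AdicCompletion.of (maximalIdeal C) C (t i : C)) = MvPowerSeries.X i := by
  obtain ⟨hspan, hind⟩ := coords_of_linearIndependent (K := K) t hli hsp
  set x : Fin n → C := fun i => (t i : C) with hxdef
  have hx : ∀ i, x i ∈ maximalIdeal C := fun i => (t i).2
  have hbij := g2_bijective x hx hind hspan hres
  obtain ⟨ψ, hψ⟩ := exists_psi x hx hbij
  have hφs := phi_surjective (K := K) x hx hspan hres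
  have hθ : Function.Bijective ((psiHat ψ).comp (phi (K := K) x hx)) := by
    apply bijective_of_X_sub_mem_sq
    · intro a
      rw [RingHom.comp_apply, phi_C, psiHat_of, ψ.commutes, MvPowerSeries.algebraMap_apply]
      rfl
    · intro i
      rw [RingHom.comp_apply, phi_X, psiHat_of]
      exact hψ i
  have hφi : Function.Injective (phi (K := K) x hx) := by
    have := hθ.1
    rw [RingHom.coe_comp] at this
    exact Function.Injective.of_comp this
  let φₐ : MvPowerSeries (Fin n) K →ₐ[K] AdicCompletion (maximalIdeal C) C :=
    { phi (K := K) x hx with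
      commutes' := fun a => by
        change phi (K := K) x hx (algebraMap K (MvPowerSeries (Fin n) K) a) = _
        rw [MvPowerSeries.algebraMap_apply, Algebra.algebraMap_self, RingHom.id_apply, phi_C,
          AdicCompletion.algebraMap_apply] }
  let e₀ : MvPowerSeries (Fin n) K ≃ₐ[K] AdicCompletion (maximalIdeal C) C :=
    AlgEquiv.ofBijective φₐ ⟨hφi, hφs⟩
  refine ⟨e₀.symm, fun i => ?_⟩
  rw [AlgEquiv.symm_apply_eq]
  change _ = phi (K := K) x hx (MvPowerSeries.X i)
  rw [phi_X]

section Localization

variable {k B : Type*} [Field k] [CommRing B] [Algebra k B]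

/-- The local ring of a formally smooth algebra is formally smooth over the base. -/
theorem formallySmooth_localization_atPrime [Algebra.FormallySmooth k B] (q : Ideal B)
    [q.IsPrime] : Algebra.FormallySmooth k (Localization.AtPrime q) := by
  have hs1 : Algebra.FormallySmooth B (Localization.AtPrime q) :=
    Algebra.FormallySmooth.of_isLocalization q.primeCompl
  exact Algebra.FormallySmooth.comp k B (Localization.AtPrime q)

/-- The residue field of the local ring at a `k`-rational maximal ideal is `k`. -/
theorem algebraMap_residueField_localization_surjective (q : Ideal B) [q.IsMaximal]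
    (hq : Function.Surjective (algebraMap k (B ⧸ q))) :
    Function.Surjective (algebraMap k (ResidueField (Localization.AtPrime q))) := by
  intro z
  obtain ⟨y, rfl⟩ := (IsLocalization.AtPrime.equivQuotMaximalIdeal q
    (Localization.AtPrime q)).surjective z
  obtain ⟨a, rfl⟩ := hq y
  refine ⟨a, ?_⟩
  rw [IsScalarTower.algebraMap_apply k B (B ⧸ q), Ideal.Quotient.algebraMap_eq,
    IsLocalization.AtPrime.equivQuotMaximalIdeal_apply_mk,
    IsScalarTower.algebraMap_apply k (Localization.AtPrime q)
      (ResidueField (Localization.AtPrime q)),
    IsScalarTower.algebraMap_apply k B (Localization.AtPrime q)]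
  rfl

end Localization

end Fermat.Agent.JAC.Div1.SmoothCompletionParam31
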